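/-
S55 / FORMAL-B : SKELETON of the pure linear algebra part (every `sorry` is a task).
Proved versions go to `Fermat/Agent/S55/FB/Claim1.lean`, `Claim2.lean`, `Serre.lean`.
All spaces are finite-dimensional over a field `k` (later `k = ZMod p`).
Notation of the comments: `0 → A → I → Q → 0`, dual sequence `0 → Q' → I' → A' → 0`,
`H^i` global cohomology, `P^i` product of the local cohomology groups, `l` = localisation.
-/
import Fermat.Agent.S55.FB.Count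

set_option autoImplicit false

namespace Fermat.Agent.S55.FB

open Module Submodule LinearMap

variable {k : Type} [Field k]

/-! ## CLAIM 1 : `dim (Sha^1(A) ∩ ker(H^1(A) → H^1(I))) ≤ dim Sha^2(A')` -/
section claim1

variable {H0I H0Q H1A H2Q' H2I' H2A' P0A P0I P0Q P1A P2Q' P2I' P2A' : Type}
  [AddCommGroup H0I] [Module k H0I] [FiniteDimensional k H0I]
  [AddCommGroup H0Q] [Module k H0Q] [FiniteDimensional k H0Q]
  [AddCommGroup H1A] [Module k H1A] [FiniteDimensional k H1A]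
  [AddCommGroup H2Q'] [Module k H2Q'] [FiniteDimensional k H2Q']
  [AddCommGroup H2I'] [Module k H2I'] [FiniteDimensional k H2I']
  [AddCommGroup H2A'] [Module k H2A'] [FiniteDimensional k H2A']
  [AddCommGroup P0A] [Module k P0A] [FiniteDimensional k P0A]
  [AddCommGroup P0I] [Module k P0I] [FiniteDimensional k P0I]
  [AddCommGroup P0Q] [Module k P0Q] [FiniteDimensional k P0Q]
  [AddCommGroup P1A] [Module k P1A] [FiniteDimensional k P1A]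
  [AddCommGroup P2Q'] [Module k P2Q'] [FiniteDimensional k P2Q']
  [AddCommGroup P2I'] [Module k P2I'] [FiniteDimensional k P2I']
  [AddCommGroup P2A'] [Module k P2A'] [FiniteDimensional k P2A']

theorem claim1
    -- global `H^0(I) → H^0(Q) → H^1(A)`
    (πG : H0I →ₗ[k] H0Q) (δG : H0Q →ₗ[k] H1A) (hδπ : ∀ i, δG (πG i) = 0)
    -- localisation maps
    (l0I : H0I →ₗ[k] P0I) (l0Q : H0Q →ₗ[k] P0Q) (l1A : H1A →ₗ[k] P1A)
    (hl0Q : Function.Injective l0Q)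
    -- local `P^0(A) → P^0(I) → P^0(Q) → P^1(A)`
    (ιL : P0A →ₗ[k] P0I) (πL : P0I →ₗ[k] P0Q) (δL : P0Q →ₗ[k] P1A)
    (hπι : ∀ a, πL (ιL a) = 0) (hL : ker δL ≤ range πL)
    (c1 : ∀ i, l0Q (πG i) = πL (l0I i)) (c2 : ∀ q, l1A (δG q) = δL (l0Q q))
    -- global `H^2(Q') → H^2(I') → H^2(A')`
    (j2 : H2Q' →ₗ[k] H2I') (ρ2 : H2I' →ₗ[k] H2A') (hG2 : ker ρ2 ≤ range j2)
    (l2Q : H2Q' →ₗ[k] P2Q') (l2I : H2I' →ₗ[k] P2I') (l2A : H2A' →ₗ[k] P2A')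
    (jL : P2Q' →ₗ[k] P2I') (ρL : P2I' →ₗ[k] P2A')
    (c3 : ∀ η, l2I (j2 η) = jL (l2Q η)) (c4 : ∀ ξ, l2A (ρ2 ξ) = ρL (l2I ξ))
    -- the local pairings `P^0(N) × P^2(N') → k`
    (bA : P0A →ₗ[k] P2A' →ₗ[k] k) (bI : P0I →ₗ[k] P2I' →ₗ[k] k) (bQ : P0Q →ₗ[k] P2Q' →ₗ[k] k)
    (adjA : ∀ a z, bI (ιL a) z = bA a (ρL z)) (adjQ : ∀ y η, bQ (πL y) η = bI y (jL η))
    -- reciprocity for `Q`
    (recQ : ∀ q η, bQ (l0Q q) (l2Q η) = 0)
    -- local duality for `A` : every functional on `P^2(A')` comes from `P^0(A)`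
    (ldA : ∀ φ : P2A' →ₗ[k] k, ∃ a, ∀ z, bA a z = φ z)
    -- base case (B3) for `I`
    (b3 : ∀ y, (∀ ξ, bI y (l2I ξ) = 0) → y ∈ range l0I) :
    finrank k (range δG ⊓ ker l1A : Submodule k H1A) ≤ finrank k (ker l2A) := sorry

end claim1

/-! ## CLAIM 2 : `sha2(A) + sha2(Q') ≤ sha1(Q) + sha1(A')` -/
section claim2

variable {H1I H1Q H2A H1Q' H1I' H1A' H2Q' H2I' : Type}
  {P1A P1I P1Q P2A P1Q' P1I' P1A' P2Q' P2I' : Type}
  [AddCommGroup H1I] [Module k H1I] [FiniteDimensional k H1I]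
  [AddCommGroup H1Q] [Module k H1Q] [FiniteDimensional k H1Q]
  [AddCommGroup H2A] [Module k H2A] [FiniteDimensional k H2A]
  [AddCommGroup H1Q'] [Module k H1Q'] [FiniteDimensional k H1Q']
  [AddCommGroup H1I'] [Module k H1I'] [FiniteDimensional k H1I']
  [AddCommGroup H1A'] [Module k H1A'] [FiniteDimensional k H1A']
  [AddCommGroup H2Q'] [Module k H2Q'] [FiniteDimensional k H2Q']
  [AddCommGroup H2I'] [Module k H2I'] [FiniteDimensional k H2I']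
  [AddCommGroup P1A] [Module k P1A] [FiniteDimensional k P1A]
  [AddCommGroup P1I] [Module k P1I] [FiniteDimensional k P1I]
  [AddCommGroup P1Q] [Module k P1Q] [FiniteDimensional k P1Q]
  [AddCommGroup P2A] [Module k P2A] [FiniteDimensional k P2A]
  [AddCommGroup P1Q'] [Module k P1Q'] [FiniteDimensional k P1Q']
  [AddCommGroup P1I'] [Module k P1I'] [FiniteDimensional k P1I']
  [AddCommGroup P1A'] [Module k P1A'] [FiniteDimensional k P1A']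
  [AddCommGroup P2Q'] [Module k P2Q'] [FiniteDimensional k P2Q']
  [AddCommGroup P2I'] [Module k P2I'] [FiniteDimensional k P2I']

theorem claim2
    -- global `H^1(I) → H^1(Q) → H^2(A)`; `π1` is injective because `H^1(A) → H^1(I)` is zero,
    -- `Sha^2(A) ⊆ range δ1` because `Sha^2(A) → H^2(I)` is zero
    (π1 : H1I →ₗ[k] H1Q) (δ1 : H1Q →ₗ[k] H2A)
    (hπ1 : Function.Injective π1) (hδπ : ∀ x, δ1 (π1 x) = 0)
    (l1I : H1I →ₗ[k] P1I) (l1Q : H1Q →ₗ[k] P1Q) (l2A : H2A →ₗ[k] P2A)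
    (hSha : ker l2A ≤ range δ1)
    -- local `P^1(A) → P^1(I) → P^1(Q) → P^2(A)`
    (ιL : P1A →ₗ[k] P1I) (πL : P1I →ₗ[k] P1Q) (δL : P1Q →ₗ[k] P2A)
    (hπι : ∀ a, πL (ιL a) = 0) (hL : ker δL ≤ range πL)
    (c1 : ∀ n, l2A (δ1 n) = δL (l1Q n))
    -- global `H^1(Q') → H^1(I') → H^1(A') → H^2(Q') → H^2(I')`
    (j1 : H1Q' →ₗ[k] H1I') (ρ1 : H1I' →ₗ[k] H1A') (δ1' : H1A' →ₗ[k] H2Q') (j2 : H2Q' →ₗ[k] H2I')
    (hρj : ker ρ1 ≤ range j1) (hδρ : ∀ x, δ1' (ρ1 x) = 0) (hjδ : ker j2 ≤ range δ1')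
    (l1Q' : H1Q' →ₗ[k] P1Q') (l1I' : H1I' →ₗ[k] P1I') (l1A' : H1A' →ₗ[k] P1A')
    (l2Q' : H2Q' →ₗ[k] P2Q') (l2I' : H2I' →ₗ[k] P2I')
    -- local `P^1(Q') → P^1(I') → P^1(A') → P^2(Q') → P^2(I')`
    (jL : P1Q' →ₗ[k] P1I') (ρL : P1I' →ₗ[k] P1A') (δL' : P1A' →ₗ[k] P2Q') (jL2 : P2Q' →ₗ[k] P2I')
    (hL' : ker δL' ≤ range ρL)
    (c2 : ∀ η, l1I' (j1 η) = jL (l1Q' η)) (c3 : ∀ m, l2Q' (δ1' m) = δL' (l1A' m))
    (c4 : ∀ x, l2I' (j2 x) = jL2 (l2Q' x))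
    -- the local pairings `P^1(N) × P^1(N') → k`
    (bA : P1A →ₗ[k] P1A' →ₗ[k] k) (bI : P1I →ₗ[k] P1I' →ₗ[k] k) (bQ : P1Q →ₗ[k] P1Q' →ₗ[k] k)
    (adjA : ∀ a z, bI (ιL a) z = bA a (ρL z)) (adjQ : ∀ y η, bQ (πL y) η = bI y (jL η))
    (recQ : ∀ n η, bQ (l1Q n) (l1Q' η) = 0)
    (ndA : ∀ z, (∀ a, bA a z = 0) → z = 0) (ndI : ∀ z, (∀ y, bI y z = 0) → z = 0)
    -- base cases (B1), (B2) for `I`
    (b1 : finrank k P1I ≤ finrank k (range l1I) + finrank k (range l1I'))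
    (b2 : finrank k (ker l2I') ≤ finrank k (ker l1I)) :
    finrank k (ker l2A) + finrank k (ker l2Q') ≤ finrank k (ker l1Q) + finrank k (ker l1A') := sorry

end claim2

/-! ## Serre's trick : injectivity of `H^1(M) → H^1(M')^*` (local) -/
section serre

variable {H0B H0C H1M H1M' H2C' H2B' : Type}
  [AddCommGroup H0B] [Module k H0B] [AddCommGroup H0C] [Module k H0C]
  [AddCommGroup H1M] [Module k H1M] [AddCommGroup H1M'] [Module k H1M']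
  [AddCommGroup H2C'] [Module k H2C'] [AddCommGroup H2B'] [Module k H2B']

theorem serre_injective
    (π : H0B →ₗ[k] H0C) (δ : H0C →ₗ[k] H1M) (hδπ : ∀ b, δ (π b) = 0)
    (δ' : H1M' →ₗ[k] H2C') (j : H2C' →ₗ[k] H2B') (hjδ : ker j ≤ range δ')
    (b11 : H1M →ₗ[k] H1M' →ₗ[k] k) (bC : H0C →ₗ[k] H2C' →ₗ[k] k) (bB : H0B →ₗ[k] H2B' →ₗ[k] k)
    (ε : k) (hcompat : ∀ c m, bC c (δ' m) = ε * b11 (δ c) m)
    (adj : ∀ b z, bC (π b) z = bB b (j z))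
    (ndC : ∀ c, (∀ z, bC c z = 0) → c = 0)
    (surjB : ∀ φ : H2B' →ₗ[k] k, ∃ b, ∀ z, bB b z = φ z)
    (c : H0C) (hc : ∀ m, b11 (δ c) m = 0) : δ c = 0 := sorry

end serre

end Fermat.Agent.S55.FB
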