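/-
S55 / FORMAL-B : SKELETON of `FB/Cup.lean` (cup products `H^0 × H^2 → H^2`, `H^1 × H^1 → H^2`
on smooth cohomology).  Every `sorry` is a task.  The definitions are final.
-/
import Fermat.Agent.S55.FB.Pair

set_option autoImplicit false

namespace Fermat.Agent.S55.FB

variable {G H : Type} [Group G] [Group H] {𝓝 : LevelSys G}
variable {A A' C : Type} [AddCommGroup A] [DistribMulAction G A]
  [AddCommGroup A'] [DistribMulAction G A'] [AddCommGroup C] [DistribMulAction G C]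

/-! ### cochain level -/

/-- `(a ∪ z)(g₀, g₁) = e(a, z(g₀, g₁))`. -/
def cup02c (e : GPair G A A' C) (a : (Fin 0 → G) → A) (z : (Fin 2 → G) → A') :
    (Fin 2 → G) → C := fun g => e (a default) (z g)

/-- `(x ∪ y)(g₀, g₁) = e(x(g₀), g₀ • y(g₁))`. -/
def cup11c (e : GPair G A A' C) (x : (Fin 1 → G) → A) (y : (Fin 1 → G) → A') :
    (Fin 2 → G) → C := fun g => e (x fun _ => g 0) (g 0 • y fun _ => g 1)

/-- TASK Cup-A -/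
theorem cup02c_mem_Zsm (e : GPair G A A' C) {a : (Fin 0 → G) → A} {z : (Fin 2 → G) → A'}
    (ha : a ∈ Zsm 𝓝 A 0) (hz : z ∈ Zsm 𝓝 A' 2) : cup02c e a z ∈ Zsm 𝓝 C 2 := sorry

/-- TASK Cup-A -/
theorem exists_cup02 (𝓝 : LevelSys G) (e : GPair G A A' C) :
    ∃ c : Hsm 𝓝 A 0 →+ Hsm 𝓝 A' 2 →+ Hsm 𝓝 C 2, ∀ (a : Zsm 𝓝 A 0) (z : Zsm 𝓝 A' 2),
      c (Hsm.mk 𝓝 A 0 a) (Hsm.mk 𝓝 A' 2 z) =
        Hsm.mk 𝓝 C 2 ⟨cup02c e a z, cup02c_mem_Zsm e a.2 z.2⟩ := sorry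

/-- TASK Cup-B -/
theorem cup11c_mem_Zsm [Smooth 𝓝 A'] (e : GPair G A A' C) {x : (Fin 1 → G) → A}
    {y : (Fin 1 → G) → A'} (hx : x ∈ Zsm 𝓝 A 1) (hy : y ∈ Zsm 𝓝 A' 1) :
    cup11c e x y ∈ Zsm 𝓝 C 2 := sorry

/-- TASK Cup-B -/
theorem exists_cup11 (𝓝 : LevelSys G) [Smooth 𝓝 A'] (e : GPair G A A' C) :
    ∃ c : Hsm 𝓝 A 1 →+ Hsm 𝓝 A' 1 →+ Hsm 𝓝 C 2, ∀ (x : Zsm 𝓝 A 1) (y : Zsm 𝓝 A' 1),
      c (Hsm.mk 𝓝 A 1 x) (Hsm.mk 𝓝 A' 1 y) =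
        Hsm.mk 𝓝 C 2 ⟨cup11c e x y, cup11c_mem_Zsm e x.2 y.2⟩ := sorry

/-! ### cohomology level -/

/-- The cup product `H^0(A) × H^2(A') → H^2(C)`. -/
noncomputable def cup02 (𝓝 : LevelSys G) (e : GPair G A A' C) :
    Hsm 𝓝 A 0 →+ Hsm 𝓝 A' 2 →+ Hsm 𝓝 C 2 := (exists_cup02 𝓝 e).choose

theorem cup02_mk (e : GPair G A A' C) (a : Zsm 𝓝 A 0) (z : Zsm 𝓝 A' 2) :
    cup02 𝓝 e (Hsm.mk 𝓝 A 0 a) (Hsm.mk 𝓝 A' 2 z) =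
      Hsm.mk 𝓝 C 2 ⟨cup02c e a z, cup02c_mem_Zsm e a.2 z.2⟩ :=
  (exists_cup02 𝓝 e).choose_spec a z

/-- The cup product `H^1(A) × H^1(A') → H^2(C)`. -/
noncomputable def cup11 (𝓝 : LevelSys G) [Smooth 𝓝 A'] (e : GPair G A A' C) :
    Hsm 𝓝 A 1 →+ Hsm 𝓝 A' 1 →+ Hsm 𝓝 C 2 := (exists_cup11 𝓝 e).choose

theorem cup11_mk [Smooth 𝓝 A'] (e : GPair G A A' C) (x : Zsm 𝓝 A 1) (y : Zsm 𝓝 A' 1) :
    cup11 𝓝 e (Hsm.mk 𝓝 A 1 x) (Hsm.mk 𝓝 A' 1 y) =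
      Hsm.mk 𝓝 C 2 ⟨cup11c e x y, cup11c_mem_Zsm e x.2 y.2⟩ :=
  (exists_cup11 𝓝 e).choose_spec x y

/-! ### adjointness (naturality in the modules) -/

section adj

variable {A₁ A₁' : Type} [AddCommGroup A₁] [DistribMulAction G A₁]
  [AddCommGroup A₁'] [DistribMulAction G A₁']

/-- TASK Cup-C -/
theorem cup02_adj (e : GPair G A A' C) (e₁ : GPair G A₁ A₁' C) (f : A →+[G] A₁)
    (f' : A₁' →+[G] A') (h : ∀ a a₁', e₁ (f a) a₁' = e a (f' a₁'))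
    (x : Hsm 𝓝 A 0) (y : Hsm 𝓝 A₁' 2) :
    cup02 𝓝 e₁ (Hsm.map f 0 x) y = cup02 𝓝 e x (Hsm.map f' 2 y) := sorry

/-- TASK Cup-C -/
theorem cup11_adj [Smooth 𝓝 A'] [Smooth 𝓝 A₁'] (e : GPair G A A' C) (e₁ : GPair G A₁ A₁' C)
    (f : A →+[G] A₁) (f' : A₁' →+[G] A') (h : ∀ a a₁', e₁ (f a) a₁' = e a (f' a₁'))
    (x : Hsm 𝓝 A 1) (y : Hsm 𝓝 A₁' 1) :
    cup11 𝓝 e₁ (Hsm.map f 1 x) y = cup11 𝓝 e x (Hsm.map f' 1 y) := sorry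

end adj

/-! ### compatibility with restriction -/

/-- TASK Cup-D -/
theorem cup02_res (f : H →* G) (𝓝H : LevelSys H) (h : (𝓝.comap f).Le 𝓝H) (e : GPair G A A' C)
    (x : Hsm 𝓝 A 0) (y : Hsm 𝓝 A' 2) :
    Hsm.res C f 𝓝H 𝓝 h 2 (cup02 𝓝 e x y) =
      cup02 𝓝H (e.res f) (Hsm.res A f 𝓝H 𝓝 h 0 x) (Hsm.res A' f 𝓝H 𝓝 h 2 y) := sorry

/-- TASK Cup-D -/
theorem cup11_res [Smooth 𝓝 A'] (f : H →* G) (𝓝H : LevelSys H) [Smooth 𝓝H (ResMod f A')]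
    (h : (𝓝.comap f).Le 𝓝H) (e : GPair G A A' C) (x : Hsm 𝓝 A 1) (y : Hsm 𝓝 A' 1) :
    Hsm.res C f 𝓝H 𝓝 h 2 (cup11 𝓝 e x y) =
      cup11 𝓝H (e.res f) (Hsm.res A f 𝓝H 𝓝 h 1 x) (Hsm.res A' f 𝓝H 𝓝 h 1 y) := sorry

/-! ### compatibility with the connecting homomorphisms -/

section delta

variable {M B N M' B' N' : Type}
  [AddCommGroup M] [DistribMulAction G M] [AddCommGroup B] [DistribMulAction G B]
  [AddCommGroup N] [DistribMulAction G N] [AddCommGroup M'] [DistribMulAction G M']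
  [AddCommGroup B'] [DistribMulAction G B'] [AddCommGroup N'] [DistribMulAction G N']

/-- TASK Cup-E.  `0 → M → B → N → 0`, `0 → N' → B' → M' → 0`, compatible pairings.
`c ∪ δ' m' = - (δ c) ∪ m'`  (the difference of the two cocycles is `d (g ↦ e_B (b, m̃(g)))`). -/
theorem cup02_delta [Smooth 𝓝 B] [Smooth 𝓝 B'] [Smooth 𝓝 M']
    {φ : M →+[G] B} {ψ : B →+[G] N} {ψ' : N' →+[G] B'} {φ' : B' →+[G] M'}
    (hs : ShortExact φ ψ) (hs' : ShortExact ψ' φ')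
    (eM : GPair G M M' C) (eB : GPair G B B' C) (eN : GPair G N N' C)
    (h₁ : ∀ m b', eB (φ m) b' = eM m (φ' b')) (h₂ : ∀ b n', eN (ψ b) n' = eB b (ψ' n'))
    (c : Hsm 𝓝 N 0) (m' : Hsm 𝓝 M' 1) :
    cup02 𝓝 eN c (Hsm.delta hs' 1 m') = - cup11 𝓝 eM (Hsm.delta hs 0 c) m' := sorry

end delta

end Fermat.Agent.S55.FB
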